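import Mathlib
import Fermat.Agent.LT.T2.Spec

/-!
# Row LT, tower T2, sub-leaf T2.01 (helper245): frames exist, the Petersson pairing is definite

OFF-MAIN.  `leaf01_245 : Fermat.Agent.LT.T2.Leaf01 K` for every number field `K`, against the
frozen bytes `LT/T2/Spec.lean` (helper130, sha256 `1b305586...`), `LT/T1/Spec.lean` (helper54,
`e8ae48d6...`), `LT/H556/A0.lean` (helper556, `66d3374a...`).

* `frameExists245`: a Haar measure of `GL₂(𝔸_K)` (`T1.LocCompC`) and the strict fundamental domain
  of `T1.FundDomC`.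
* `pairDefinite245`: a cusp function is bounded and continuous, the domain has finite measure, so
  `φ φ̄` is integrable on it; if `∫_D |φ|² = 0` then the open set `V = {φ ≠ 0}` meets `D` in a null
  set, hence (left invariance of `φ` and of `μ` under the countable group `GL₂(K)`) it meets the
  slab in a null set, hence it does not meet the OPEN slab `1 < ‖det g‖ < 2`
  (`T1.AdNormC`: the module is continuous); but every `g` is moved into the open slab by a positive
  rational scalar at one infinite place, under which `φ` is invariant; so `V = ∅`.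

By-products: `cIdele245`, `zScalar245` (the scalar `r ∈ ℚ_{>0}` at one infinite place as an idele,
resp. as an element of `GL₂(𝔸_K)`), `adNorm_cIdele245`, `detNorm245` with `detNorm245_mul`,
`detNorm245_ratG` (product formula for `det γ`), `continuous_detNorm245`, `countable_GL245`.
-/

set_option autoImplicit false
set_option linter.unusedSectionVars false

open IsDedekindDomain NumberField MeasureTheory AutomorphicForm
open Fermat.Agent.LT.H556.A0
open Fermat.Agent.LT

noncomputable section
namespace Fermat.Agent.LT.T2.H245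

variable {K : Type} [Field K] [NumberField K]

attribute [local instance] Fermat.Agent.LT.T2.borelG
attribute [local instance] Classical.propDecidable

theorem countable_K245 (K : Type) [Field K] [NumberField K] : Countable K := by
  have e := (Module.finBasis ℚ K).equivFun
  exact e.injective.countable

theorem countable_GL245 (K : Type) [Field K] [NumberField K] : Countable (GL (Fin 2) K) := by
  have := countable_K245 K
  have hinj : Function.Injective (fun g : GL (Fin 2) K => fun i j : Fin 2 =>
      (g : Matrix (Fin 2) (Fin 2) K) i j) := by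
    intro g h hgh
    apply Units.ext
    ext i j
    exact congrFun (congrFun hgh i) j
  exact hinj.countable

theorem charZero_completion245 (w : InfinitePlace K) : CharZero w.Completion :=
  (InfinitePlace.Completion.extensionEmbedding w).charZero

/-- The adele which is `r` at the infinite place `w` and `1` at every other place. -/
def cAdele245 (w : InfinitePlace K) (r : ℚ) : Adl K :=
  ((Pi.mulSingle w (r : w.Completion) : InfiniteAdeleRing K), (1 : FiniteAdeleRing (𝓞 K) K))

theorem cAdele245_fst (w : InfinitePlace K) (r : ℚ) :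
    (cAdele245 w r).1 = Pi.mulSingle w (r : w.Completion) := rfl

theorem cAdele245_snd (w : InfinitePlace K) (r : ℚ) :
    (cAdele245 w r).2 = 1 := rfl

theorem cAdele245_mul (w : InfinitePlace K) (r s : ℚ) :
    cAdele245 w r * cAdele245 w s = cAdele245 w (r * s) := by
  have := charZero_completion245 w
  apply Prod.ext
  · show Pi.mulSingle w (r : w.Completion) * Pi.mulSingle w (s : w.Completion)
      = Pi.mulSingle w ((r * s : ℚ) : w.Completion)
    rw [← Pi.mulSingle_mul, Rat.cast_mul]
  · show (1 : FiniteAdeleRing (𝓞 K) K) * 1 = 1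
    rw [one_mul]

theorem cAdele245_one (w : InfinitePlace K) : cAdele245 w 1 = 1 := by
  apply Prod.ext
  · show Pi.mulSingle w ((1 : ℚ) : w.Completion) = 1
    rw [Rat.cast_one, Pi.mulSingle_one]
  · rfl

/-- The idele which is `r ≠ 0` at the infinite place `w` and `1` at every other place. -/
def cIdele245 (w : InfinitePlace K) (r : ℚ) (hr : r ≠ 0) : (Adl K)ˣ where
  val := cAdele245 w r
  inv := cAdele245 w r⁻¹
  val_inv := by rw [cAdele245_mul, mul_inv_cancel₀ hr, cAdele245_one]
  inv_val := by rw [cAdele245_mul, inv_mul_cancel₀ hr, cAdele245_one]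

theorem norm_ratCast_completion245 (w : InfinitePlace K) (r : ℚ) :
    ‖(r : w.Completion)‖ = |(r : ℝ)| := by
  have h1 := (InfinitePlace.Completion.isometry_extensionEmbedding w).norm_map_of_map_zero
    (map_zero _) (r : w.Completion)
  rw [← h1, map_ratCast]
  simp

/-- The module of the idele `cIdele245 w r`. -/
theorem adNorm_cIdele245 (w : InfinitePlace K) (r : ℚ) (hr : r ≠ 0) :
    T1.adNorm K ((cIdele245 w r hr : (Adl K)ˣ) : Adl K) = |(r : ℝ)| ^ w.mult := by
  show T1.adNorm K (cAdele245 w r) = _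
  unfold T1.adNorm
  have hfin : (∏ᶠ v : HeightOneSpectrum (𝓞 K), ‖(cAdele245 w r).2 v‖) = 1 := by
    have : ∀ v : HeightOneSpectrum (𝓞 K), ‖(cAdele245 w r).2 v‖ = 1 := by
      intro v
      rw [cAdele245_snd]
      show ‖(1 : v.adicCompletion K)‖ = 1
      exact norm_one
    simp only [this]
    exact finprod_one
  rw [hfin, mul_one]
  rw [Finset.prod_eq_single w]
  · rw [cAdele245_fst, Pi.mulSingle_eq_same, norm_ratCast_completion245]
  · intro w' _ hw'
    rw [cAdele245_fst, Pi.mulSingle_eq_of_ne hw', norm_one, one_pow]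
  · intro h
    exact absurd (Finset.mem_univ w) h

/-- The scalar matrix `r` at the infinite place `w`, identity elsewhere. -/
def zScalar245 (w : InfinitePlace K) (r : ℚ) (hr : r ≠ 0) : G K :=
  Units.map (Matrix.scalar (Fin 2) : Adl K →+* Matrix (Fin 2) (Fin 2) (Adl K)).toMonoidHom
    (cIdele245 w r hr)

theorem zScalar245_val (w : InfinitePlace K) (r : ℚ) (hr : r ≠ 0) :
    ((zScalar245 w r hr : G K) : Matrix (Fin 2) (Fin 2) (Adl K))
      = Matrix.diagonal (fun _ => cAdele245 w r) := rfl

theorem zScalar245_apply (w : InfinitePlace K) (r : ℚ) (hr : r ≠ 0) (i j : Fin 2) :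
    ((zScalar245 w r hr : G K) : Matrix (Fin 2) (Fin 2) (Adl K)) i j
      = if i = j then cAdele245 w r else 0 := by
  rw [zScalar245_val, Matrix.diagonal_apply]

theorem zScalar245_det (w : InfinitePlace K) (r : ℚ) (hr : r ≠ 0) :
    Matrix.GeneralLinearGroup.det (zScalar245 w r hr) = cIdele245 w r hr * cIdele245 w r hr := by
  apply Units.ext
  rw [Matrix.GeneralLinearGroup.val_det_apply, zScalar245_val, Matrix.det_diagonal,
    Fin.prod_univ_two]
  rfl

theorem isLocalAtInf_zScalar245 (w : InfinitePlace K) (r : ℚ) (hr : r ≠ 0) :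
    IsLocalAtInf w (zScalar245 w r hr) := by
  refine ⟨fun w' hw' i j => ?_, fun v => ?_⟩
  · rw [zScalar245_apply]
    by_cases hij : i = j
    · rw [if_pos hij, cAdele245_fst, Pi.mulSingle_eq_of_ne hw', hij, Matrix.one_apply_eq]
    · rw [if_neg hij, Matrix.one_apply_ne hij]
      rfl
  · show finComp v (zScalar245 w r hr) = 1
    refine Matrix.ext fun i j => ?_
    show (((zScalar245 w r hr : G K) : Matrix (Fin 2) (Fin 2) (Adl K)) i j).2 v = _
    rw [zScalar245_apply]
    by_cases hij : i = j
    · rw [if_pos hij, cAdele245_snd, hij, Matrix.one_apply_eq]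
      rfl
    · rw [if_neg hij, Matrix.one_apply_ne hij]
      rfl

theorem infComp_zScalar245 (w : InfinitePlace K) (r : ℚ) (hr : r ≠ 0) :
    infComp w (zScalar245 w r hr) = Matrix.diagonal (fun _ => (((r : ℝ)) : ℂ)) := by
  have := charZero_completion245 w
  refine Matrix.ext fun i j => ?_
  show InfinitePlace.Completion.extensionEmbedding w
    ((((zScalar245 w r hr : G K) : Matrix (Fin 2) (Fin 2) (Adl K)) i j).1 w) = _
  rw [zScalar245_apply, Matrix.diagonal_apply]
  by_cases hij : i = j
  · rw [if_pos hij, if_pos hij, cAdele245_fst, Pi.mulSingle_eq_same, map_ratCast]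
    simp
  · rw [if_neg hij, if_neg hij]
    show InfinitePlace.Completion.extensionEmbedding w (0 : w.Completion) = 0
    exact map_zero _

theorem isArchPosScalar_zScalar245 (w : InfinitePlace K) (r : ℚ) (hr : 0 < r) :
    IsArchPosScalar w (zScalar245 w r hr.ne') :=
  ⟨isLocalAtInf_zScalar245 w r hr.ne', (r : ℝ), by exact_mod_cast hr,
    infComp_zScalar245 w r hr.ne'⟩

/-- The module of the determinant, as a function on `GL₂(𝔸_K)`. -/
def detNorm245 (g : G K) : ℝ :=
  T1.adNorm K (Matrix.det (g : Matrix (Fin 2) (Fin 2) (Adl K)))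

theorem detNorm245_eq (g : G K) :
    detNorm245 g = T1.adNorm K ((Matrix.GeneralLinearGroup.det g : (Adl K)ˣ) : Adl K) := by
  rw [Matrix.GeneralLinearGroup.val_det_apply]
  rfl

theorem detNorm245_mul (hN : T1.AdNormC K) (g h : G K) :
    detNorm245 (g * h) = detNorm245 g * detNorm245 h := by
  rw [detNorm245_eq, detNorm245_eq, detNorm245_eq, map_mul]
  exact hN.2.1 _ _

theorem detNorm245_pos (hN : T1.AdNormC K) (g : G K) : 0 < detNorm245 g := by
  rw [detNorm245_eq]
  exact hN.1 _

theorem detNorm245_zScalar (hN : T1.AdNormC K) (w : InfinitePlace K) (r : ℚ) (hr : r ≠ 0) :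
    detNorm245 (zScalar245 w r hr) = (|(r : ℝ)| ^ w.mult) ^ 2 := by
  rw [detNorm245_eq, zScalar245_det, hN.2.1, adNorm_cIdele245, sq]

theorem detNorm245_ratG (hN : T1.AdNormC K) (γ : GL (Fin 2) K) :
    detNorm245 (T1.ratG K γ) = 1 := by
  rw [detNorm245_eq]
  have h := hN.2.2.1 (Matrix.GeneralLinearGroup.det γ)
  convert h using 2
  rw [Matrix.GeneralLinearGroup.val_det_apply]
  show Matrix.det ((algebraMap K (Adl K)).mapMatrix (γ : Matrix (Fin 2) (Fin 2) K)) = _
  rw [← RingHom.map_det]
  rfl

theorem continuous_detNorm245 (hN : T1.AdNormC K) : Continuous (detNorm245 (K := K)) := by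
  have hdet : Continuous (fun g : G K => (Matrix.GeneralLinearGroup.det g : (Adl K)ˣ)) := by
    rw [Units.continuous_iff]
    constructor
    · show Continuous fun g : G K => ((Matrix.GeneralLinearGroup.det g : (Adl K)ˣ) : Adl K)
      simp only [Matrix.GeneralLinearGroup.val_det_apply]
      exact (Units.continuous_val).matrix_det
    · show Continuous fun g : G K => (((Matrix.GeneralLinearGroup.det g)⁻¹ : (Adl K)ˣ) : Adl K)
      have : ∀ g : G K, (((Matrix.GeneralLinearGroup.det g)⁻¹ : (Adl K)ˣ) : Adl K)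
          = Matrix.det ((g⁻¹ : G K) : Matrix (Fin 2) (Fin 2) (Adl K)) := by
        intro g
        rw [← map_inv, Matrix.GeneralLinearGroup.val_det_apply]
      simp only [this]
      exact (Units.continuous_val.comp continuous_inv).matrix_det
  have h := hN.2.2.2.comp hdet
  have heq : (detNorm245 (K := K)) = (fun x : (Adl K)ˣ => T1.adNorm K (x : Adl K)) ∘
      (fun g : G K => (Matrix.GeneralLinearGroup.det g : (Adl K)ˣ)) := by
    funext g
    exact detNorm245_eq g
  rw [heq]
  exact h

/-- The open slab `1 < ‖det g‖ < 2`. -/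
def openSlab245 (K : Type) [Field K] [NumberField K] : Set (G K) :=
  {g | 1 < detNorm245 g ∧ detNorm245 g < 2}

theorem isOpen_openSlab245 (hN : T1.AdNormC K) : IsOpen (openSlab245 K) := by
  have h : openSlab245 K = detNorm245 ⁻¹' (Set.Ioo (1 : ℝ) 2) := rfl
  rw [h]
  exact isOpen_Ioo.preimage (continuous_detNorm245 hN)

theorem openSlab245_subset_slab : openSlab245 K ⊆ T1.slab K :=
  fun _ hg => ⟨hg.1.le, hg.2⟩

/-- A rational number whose `k`-th power lies in `(1/N, 2/N)`. -/
theorem exists_rat_pow_between245 (N : ℝ) (hN : 0 < N) (k : ℕ) (hk : k ≠ 0) :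
    ∃ r : ℚ, 0 < r ∧ 1 < N * (r : ℝ) ^ k ∧ N * (r : ℝ) ^ k < 2 := by
  have ha0 : (0 : ℝ) ≤ 1 / N := by positivity
  have hb0 : (0 : ℝ) ≤ 2 / N := by positivity
  have hab : 1 / N < 2 / N := by
    apply div_lt_div_of_pos_right _ hN
    norm_num
  have hkpos : (0 : ℝ) < (k : ℝ)⁻¹ := by
    have : (0 : ℝ) < k := by exact_mod_cast Nat.pos_of_ne_zero hk
    positivity
  have hlt : (1 / N) ^ ((k : ℝ)⁻¹) < (2 / N) ^ ((k : ℝ)⁻¹) :=
    Real.rpow_lt_rpow ha0 hab hkpos
  obtain ⟨r, hr1, hr2⟩ := exists_rat_btwn hlt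
  have hapos : (0 : ℝ) < (1 / N) ^ ((k : ℝ)⁻¹) := Real.rpow_pos_of_pos (by positivity) _
  have hrpos : (0 : ℝ) < (r : ℝ) := lt_trans hapos hr1
  refine ⟨r, by exact_mod_cast hrpos, ?_, ?_⟩
  · have h1 : ((1 / N) ^ ((k : ℝ)⁻¹)) ^ k < (r : ℝ) ^ k :=
      pow_lt_pow_left₀ hr1 hapos.le hk
    rw [Real.rpow_inv_natCast_pow ha0 hk] at h1
    have := mul_lt_mul_of_pos_left h1 hN
    rwa [mul_one_div_cancel hN.ne'] at this
  · have h2 : (r : ℝ) ^ k < ((2 / N) ^ ((k : ℝ)⁻¹)) ^ k :=
      pow_lt_pow_left₀ hr2 hrpos.le hk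
    rw [Real.rpow_inv_natCast_pow hb0 hk] at h2
    have := mul_lt_mul_of_pos_left h2 hN
    rwa [mul_div_cancel₀ _ hN.ne'] at this

/-- Every `g` can be moved into the open slab by a positive scalar at one infinite place. -/
theorem exists_scalar_openSlab245 (hN : T1.AdNormC K) (g : G K) :
    ∃ (w : InfinitePlace K) (z : G K), IsArchPosScalar w z ∧ g * z ∈ openSlab245 K := by
  obtain ⟨w⟩ : Nonempty (InfinitePlace K) := inferInstance
  have hk : w.mult * 2 ≠ 0 := by
    have := w.mult_pos
    omega
  obtain ⟨r, hr, h1, h2⟩ := exists_rat_pow_between245 (detNorm245 g) (detNorm245_pos hN g)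
    (w.mult * 2) hk
  refine ⟨w, zScalar245 w r hr.ne', isArchPosScalar_zScalar245 w r hr, ?_⟩
  have hrr : |(r : ℝ)| = (r : ℝ) := abs_of_pos (by exact_mod_cast hr)
  have hval : detNorm245 (g * zScalar245 w r hr.ne') = detNorm245 g * (r : ℝ) ^ (w.mult * 2) := by
    rw [detNorm245_mul hN, detNorm245_zScalar hN, hrr, ← pow_mul]
  show 1 < detNorm245 (g * zScalar245 w r hr.ne') ∧ detNorm245 (g * zScalar245 w r hr.ne') < 2
  rw [hval]
  exact ⟨h1, h2⟩

/-- **T2.01, first part**: frames exist. -/
theorem frameExists245 (h : T1.T1Out K) : FrameExists K := by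
  obtain ⟨-, hlc, -, -⟩ := h.locComp
  have : BorelSpace (G K) := ⟨rfl⟩
  have := hlc
  obtain ⟨F, hF, hsub, hstrict, hfin⟩ :=
    h.fundDom (Measure.haar : Measure (G K)) inferInstance
  exact ⟨⟨Measure.haar, inferInstance, F, hF, hsub, hstrict, hfin⟩⟩

/-- **T2.01, second part**: cusp functions are square integrable on the domain and the pairing
is definite. -/
theorem pairDefinite245 (h : T1.T1Out K) (𝔫 : Ideal (𝓞 K)) : PairDefinite K 𝔫 := by
  intro F φ hφ
  have : BorelSpace (G K) := ⟨rfl⟩
  have := F.haar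
  have hN := h.adNorm
  obtain ⟨C, hC⟩ := hφ.bdd
  have hcont : Continuous (fun g => φ g * (starRingEnd ℂ) (φ g)) :=
    hφ.cont.mul (Complex.continuous_conj.comp hφ.cont)
  have hint : IntegrableOn (fun g => φ g * (starRingEnd ℂ) (φ g)) F.D F.μ := by
    refine Measure.integrableOn_of_bounded (M := C * C) F.fin.ne hcont.aestronglyMeasurable
      (Filter.Eventually.of_forall fun g => ?_)
    rw [norm_mul, RCLike.norm_conj]
    exact mul_le_mul (hC g) (hC g) (norm_nonneg _) ((norm_nonneg _).trans (hC g))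
  refine ⟨hint, fun h0 => ?_⟩
  -- the real form of the pairing
  have hreal : ∀ g, φ g * (starRingEnd ℂ) (φ g) = ((Complex.normSq (φ g) : ℝ) : ℂ) :=
    fun g => Complex.mul_conj (φ g)
  have hintR : IntegrableOn (fun g => Complex.normSq (φ g)) F.D F.μ := by
    have := hint.re
    refine this.congr (Filter.Eventually.of_forall fun g => ?_)
    show (φ g * (starRingEnd ℂ) (φ g)).re = Complex.normSq (φ g)
    rw [hreal, Complex.ofReal_re]
  have h0R : ∫ g in F.D, Complex.normSq (φ g) ∂F.μ = 0 := by
    have h1 : pair F φ φ = ((∫ g in F.D, Complex.normSq (φ g) ∂F.μ : ℝ) : ℂ) := by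
      unfold pair
      simp only [hreal]
      exact integral_ofReal
    rw [h1] at h0
    exact_mod_cast h0
  have hae : (fun g => Complex.normSq (φ g)) =ᵐ[F.μ.restrict F.D] 0 :=
    (setIntegral_eq_zero_iff_of_nonneg_ae
      (Filter.Eventually.of_forall fun g => Complex.normSq_nonneg _) hintR).1 h0R
  -- the open set where `φ ≠ 0`
  have hVopen : IsOpen {g : G K | φ g ≠ 0} := isOpen_ne_fun hφ.cont continuous_const
  have hVD : F.μ ({g : G K | φ g ≠ 0} ∩ F.D) = 0 := by
    have h2 : F.μ.restrict F.D {g : G K | φ g ≠ 0} = 0 := by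
      have h3 : ∀ᵐ g ∂(F.μ.restrict F.D), Complex.normSq (φ g) = 0 := hae
      rw [ae_iff] at h3
      have h4 : {g : G K | φ g ≠ 0} = {g : G K | ¬ Complex.normSq (φ g) = 0} := by
        ext g
        show φ g ≠ 0 ↔ ¬ Complex.normSq (φ g) = 0
        rw [Complex.normSq_eq_zero]
      rw [h4]
      exact h3
    rwa [Measure.restrict_apply hVopen.measurableSet] at h2
  -- the part of `V` in the slab is a null set
  have hVslab : F.μ ({g : G K | φ g ≠ 0} ∩ T1.slab K) = 0 := by
    have hcnt := countable_GL245 K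
    have hsub : {g : G K | φ g ≠ 0} ∩ T1.slab K ⊆
        ⋃ γ : GL (Fin 2) K, (fun g : G K => T1.ratG K γ * g) ⁻¹'
          ({g : G K | φ g ≠ 0} ∩ F.D) := by
      rintro g ⟨hg, hgs⟩
      obtain ⟨γ, hγ, -⟩ := F.strict g hgs
      refine Set.mem_iUnion.2 ⟨γ, ?_, hγ⟩
      show φ (T1.ratG K γ * g) ≠ 0
      have := hφ.left_inv γ g
      rw [show T1.ratG K γ * g
        = Matrix.GeneralLinearGroup.map (algebraMap K (Adl K)) γ * g from rfl, this]
      exact hg
    refine measure_mono_null hsub ?_
    refine measure_iUnion_null fun γ => ?_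
    rw [measure_preimage_mul]
    exact hVD
  -- hence `V` does not meet the open slab
  have hempty : {g : G K | φ g ≠ 0} ∩ openSlab245 K = ∅ := by
    have hop : IsOpen ({g : G K | φ g ≠ 0} ∩ openSlab245 K) :=
      hVopen.inter (isOpen_openSlab245 hN)
    rw [← hop.measure_eq_zero_iff F.μ]
    exact measure_mono_null (Set.inter_subset_inter_right _ openSlab245_subset_slab) hVslab
  intro g
  by_contra hg
  obtain ⟨w, z, hz, hgz⟩ := exists_scalar_openSlab245 hN g
  have hmem : g * z ∈ {g : G K | φ g ≠ 0} ∩ openSlab245 K := by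
    refine ⟨?_, hgz⟩
    show φ (g * z) ≠ 0
    rw [hφ.arch_scalar w z hz g]
    exact hg
  rw [hempty] at hmem
  exact hmem

/-- **T2.01**: frames exist and the Petersson pairing is definite on the cusp functions. -/
theorem leaf01_245 (K : Type) [Field K] [NumberField K] : Leaf01 K :=
  fun h => ⟨frameExists245 h, fun 𝔫 _ => pairDefinite245 h 𝔫⟩


/-- Type check against the frozen Prop. -/
example (K : Type) [Field K] [NumberField K] : Fermat.Agent.LT.T2.Leaf01 K := leaf01_245 K

end Fermat.Agent.LT.T2.H245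

end
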